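import Mathlib

/-!
# Lib.Frob — piece (B): degree-one primes of a fixed field and Frobenius elements

`f_p * #{P ∣ p : Frob_P ∈ H} = |H| * #{ideals of 𝓞 (L^H) of norm p}` at a good prime `p`.
(helper344; statement shape = helper43's skeleton `inertiaDegIn_mul_ncard_frobPrimes`.)
-/

set_option autoImplicit false

open NumberField

namespace Fermat.Agent.Lib.Frob.H344

/-- Number of integral ideals of norm `n` (the coefficient of `NumberField.dedekindZeta`). -/
noncomputable def idealCount (K : Type*) [Field K] [NumberField K] (n : ℕ) : ℕ :=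
  Nat.card {I : Ideal (𝓞 K) // Ideal.absNorm I = n}

/-- `p` is a good prime for `L`: it does not divide the discriminant (⇔ unramified). -/
def Good (L : Type*) [Field L] [NumberField L] (p : ℕ) : Prop :=
  p.Prime ∧ ¬ ((p : ℤ) ∣ NumberField.discr L)

/-- The primes of `𝓞 L` over `p` having an arithmetic Frobenius in the set `T`. -/
def frobPrimes (L : Type*) [Field L] [NumberField L] (p : ℕ) (T : Set (L ≃ₐ[ℚ] L)) :
    Set (Ideal (𝓞 L)) :=
  {P | P ∈ Ideal.primesOver (Ideal.span {(p : ℤ)}) (𝓞 L) ∧ ∃ σ ∈ T, IsArithFrobAt ℤ σ P}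

section degOne

variable (K : Type*) [Field K] [NumberField K]

/-- B1: an ideal of norm `p` is the same as a prime over `p` of residue degree one. -/
theorem absNorm_eq_prime_iff {p : ℕ} (hp : p.Prime) (I : Ideal (𝓞 K)) :
    Ideal.absNorm I = p ↔
      I ∈ Ideal.primesOver (Ideal.span {(p : ℤ)}) (𝓞 K) ∧ I.inertiaDeg ℤ = 1 := by
  constructor
  · intro h
    have hI : I.IsPrime :=
      Ideal.isPrime_of_irreducible_absNorm (by rw [h]; exact hp.prime.irreducible)
    have hmem : ((p : ℤ) : 𝓞 K) ∈ I := by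
      have := Ideal.absNorm_mem I
      rw [h] at this
      exact_mod_cast this
    have hlo : I.LiesOver (Ideal.span {(p : ℤ)}) :=
      (Ideal.liesOver_span_iff hI.ne_top (Nat.prime_iff_prime_int.mp hp)).mpr (by simpa using hmem)
    refine ⟨⟨hI, hlo⟩, ?_⟩
    have := Ideal.natAbs_pow_inertiaDeg (p : ℤ) I
    rw [h, Int.natAbs_natCast] at this
    exact Nat.pow_right_injective hp.two_le (by simpa using this)
  · rintro ⟨⟨hI, hlo⟩, hf⟩
    have := Ideal.natAbs_pow_inertiaDeg (p : ℤ) I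
    rw [hf, pow_one, Int.natAbs_natCast] at this
    exact this.symm

end degOne


section fixed

variable (L : Type*) [Field L] [NumberField L] [IsGalois ℚ L] (H : Subgroup (L ≃ₐ[ℚ] L))

/-- `H` is a Galois group for `L / L^H`. -/
theorem isGaloisGroup_fixedField : IsGaloisGroup H (IntermediateField.fixedField H) L :=
  IsGaloisGroup.subgroup (L ≃ₐ[ℚ] L) ℚ L H

/-- `H` is a Galois group for `𝓞 L / 𝓞 (L^H)`. -/
theorem isGaloisGroup_fixedField_int :
    IsGaloisGroup H (𝓞 (IntermediateField.fixedField H)) (𝓞 L) :=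
  haveI := isGaloisGroup_fixedField L H
  IsGaloisGroup.of_isFractionRing H (𝓞 (IntermediateField.fixedField H)) (𝓞 L)
    (IntermediateField.fixedField H) L

variable {L}

theorem natCard_quot_span_prime (p : ℕ) :
    Nat.card (ℤ ⧸ (Ideal.span {(p : ℤ)} : Ideal ℤ)) = p := by
  rw [← Submodule.cardQuot_apply, ← Ideal.absNorm_apply, Ideal.absNorm_span_singleton]
  simp

theorem natCard_quot_under_int {p : ℕ} (hp : p.Prime) (P : Ideal (𝓞 L))
    (hP : P ∈ Ideal.primesOver (Ideal.span {(p : ℤ)}) (𝓞 L)) :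
    Nat.card (ℤ ⧸ P.under ℤ) = p := by
  have := hP.2
  rw [← Ideal.over_def P (Ideal.span {(p : ℤ)})]
  exact natCard_quot_span_prime p


theorem ne_bot_of_mem_primesOver {K : Type*} [Field K] [NumberField K] {p : ℕ} (hp : p.Prime)
    (P : Ideal (𝓞 K)) (hP : P ∈ Ideal.primesOver (Ideal.span {(p : ℤ)}) (𝓞 K)) : P ≠ ⊥ := by
  have := hP.1
  have := hP.2
  intro h
  have h1 : (Ideal.span {(p : ℤ)} : Ideal ℤ) = ⊥ := by
    rw [Ideal.over_def P (Ideal.span {(p : ℤ)}), h]
    exact Ideal.under_bot ..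
  rw [Ideal.span_singleton_eq_bot] at h1
  exact hp.ne_zero (by exact_mod_cast h1)

/-- In a finite domain where every element satisfies `y ^ p = y`, there are at most `p`
elements. -/
theorem natCard_le_of_forall_pow_eq {F : Type*} [CommRing F] [IsDomain F] [Finite F] {p : ℕ}
    (hp : 1 < p) (h : ∀ y : F, y ^ p = y) : Nat.card F ≤ p := by
  classical
  have hdeg : (Polynomial.X ^ p - Polynomial.X : Polynomial F).natDegree = p := by
    have h1 : (Polynomial.X : Polynomial F).natDegree <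
        (Polynomial.X ^ p : Polynomial F).natDegree := by
      rw [Polynomial.natDegree_X_pow, Polynomial.natDegree_X]
      exact hp
    rw [Polynomial.natDegree_sub_eq_left_of_natDegree_lt h1, Polynomial.natDegree_X_pow]
  have hne : (Polynomial.X ^ p - Polynomial.X : Polynomial F) ≠ 0 := by
    intro h0
    rw [h0, Polynomial.natDegree_zero] at hdeg
    omega
  have hsub : (Set.univ : Set F) ⊆
      ((Polynomial.X ^ p - Polynomial.X : Polynomial F).roots.toFinset : Set F) := by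
    intro y _
    rw [Finset.mem_coe, Multiset.mem_toFinset, Polynomial.mem_roots hne, Polynomial.IsRoot.def]
    rw [Polynomial.eval_sub, Polynomial.eval_pow, Polynomial.eval_X, h y, sub_self]
  have h1 : Nat.card F ≤
      (Polynomial.X ^ p - Polynomial.X : Polynomial F).roots.toFinset.card := by
    rw [← Set.ncard_univ, ← Set.ncard_coe_finset]
    exact Set.ncard_le_ncard hsub (Finset.finite_toSet _)
  calc Nat.card F ≤ (Polynomial.X ^ p - Polynomial.X : Polynomial F).roots.toFinset.card := h1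
    _ ≤ Multiset.card (Polynomial.X ^ p - Polynomial.X : Polynomial F).roots :=
        Multiset.toFinset_card_le _
    _ ≤ (Polynomial.X ^ p - Polynomial.X : Polynomial F).natDegree := Polynomial.card_roots' _
    _ = p := hdeg

/-- B2 (⇐): if the prime below `P` in `L^H` has degree one, `P` has a Frobenius in `H`. -/
theorem exists_frob_mem_of_inertiaDeg_eq_one {p : ℕ} (hp : p.Prime) (P : Ideal (𝓞 L))
    (hP : P ∈ Ideal.primesOver (Ideal.span {(p : ℤ)}) (𝓞 L))
    (hf : (P.under (𝓞 (IntermediateField.fixedField H))).inertiaDeg ℤ = 1) :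
    ∃ σ ∈ H, IsArithFrobAt ℤ σ P := by
  have := isGaloisGroup_fixedField_int L H
  have := hP.1
  have := hP.2
  have : Finite (𝓞 L ⧸ P) := Ideal.finiteQuotientOfFreeOfNeBot P (ne_bot_of_mem_primesOver hp P hP)
  obtain ⟨τ, hτ⟩ :=
    IsArithFrobAt.exists_of_isInvariant (𝓞 (IntermediateField.fixedField H)) H P
  refine ⟨τ.1, τ.2, fun x => ?_⟩
  have h1 := hτ x
  have hlo : (P.under (𝓞 (IntermediateField.fixedField H))).LiesOver (Ideal.span {(p : ℤ)}) :=
    Ideal.LiesOver.tower_bot P _ _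
  have hc : Nat.card (𝓞 (IntermediateField.fixedField H) ⧸
      P.under (𝓞 (IntermediateField.fixedField H))) = p := by
    rw [← Submodule.cardQuot_apply, ← Ideal.absNorm_apply]
    exact (absNorm_eq_prime_iff _ hp _).mpr ⟨⟨inferInstance, hlo⟩, hf⟩
  rw [natCard_quot_under_int hp P hP]
  rw [hc] at h1
  exact h1

/-- B2 (⇒): if `P` has a Frobenius in `H`, the prime below `P` in `L^H` has degree one. -/
theorem inertiaDeg_eq_one_of_frob_mem {p : ℕ} (hp : p.Prime) (P : Ideal (𝓞 L))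
    (hP : P ∈ Ideal.primesOver (Ideal.span {(p : ℤ)}) (𝓞 L))
    (h : ∃ σ ∈ H, IsArithFrobAt ℤ σ P) :
    (P.under (𝓞 (IntermediateField.fixedField H))).inertiaDeg ℤ = 1 := by
  have := isGaloisGroup_fixedField_int L H
  have := hP.1
  have := hP.2
  obtain ⟨σ, hσH, hσ⟩ := h
  have hlo : (P.under (𝓞 (IntermediateField.fixedField H))).LiesOver (Ideal.span {(p : ℤ)}) :=
    Ideal.LiesOver.tower_bot P _ _
  have hqmem : P.under (𝓞 (IntermediateField.fixedField H)) ∈
      Ideal.primesOver (Ideal.span {(p : ℤ)}) (𝓞 (IntermediateField.fixedField H)) :=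
    ⟨inferInstance, hlo⟩
  have hne := ne_bot_of_mem_primesOver hp _ hqmem
  have : Finite (𝓞 (IntermediateField.fixedField H) ⧸
      P.under (𝓞 (IntermediateField.fixedField H))) := Ideal.finiteQuotientOfFreeOfNeBot _ hne
  have key : ∀ y : 𝓞 (IntermediateField.fixedField H) ⧸
      P.under (𝓞 (IntermediateField.fixedField H)), y ^ p = y := by
    intro y
    obtain ⟨x, rfl⟩ := Ideal.Quotient.mk_surjective y
    rw [← map_pow, eq_comm, Ideal.Quotient.eq, Ideal.under_def, Ideal.mem_comap, map_sub, map_pow]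
    have h1 := hσ (algebraMap _ (𝓞 L) x)
    rw [natCard_quot_under_int hp P hP] at h1
    have h2 : (⟨σ, hσH⟩ : H) • (algebraMap (𝓞 (IntermediateField.fixedField H)) (𝓞 L) x) =
        algebraMap (𝓞 (IntermediateField.fixedField H)) (𝓞 L) x := smul_algebraMap _ _
    have h3 : (MulSemiringAction.toAlgHom ℤ (𝓞 L) σ)
        (algebraMap (𝓞 (IntermediateField.fixedField H)) (𝓞 L) x) =
        algebraMap (𝓞 (IntermediateField.fixedField H)) (𝓞 L) x := h2
    rw [h3] at h1
    exact h1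
  have hle := natCard_le_of_forall_pow_eq hp.one_lt key
  have hcard : Nat.card (𝓞 (IntermediateField.fixedField H) ⧸
      P.under (𝓞 (IntermediateField.fixedField H))) =
      p ^ (P.under (𝓞 (IntermediateField.fixedField H))).inertiaDeg ℤ := by
    rw [← Submodule.cardQuot_apply, ← Ideal.absNorm_apply]
    have := Ideal.natAbs_pow_inertiaDeg (p : ℤ) (P.under (𝓞 (IntermediateField.fixedField H)))
    rw [Int.natAbs_natCast] at this
    exact this.symm
  rw [hcard] at hle
  have hpos : 0 < (P.under (𝓞 (IntermediateField.fixedField H))).inertiaDeg ℤ :=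
    Ideal.inertiaDeg_pos _ _
  have : (P.under (𝓞 (IntermediateField.fixedField H))).inertiaDeg ℤ ≤ 1 := by
    by_contra hcon
    rw [not_le] at hcon
    have : p ^ 2 ≤ p ^ (P.under (𝓞 (IntermediateField.fixedField H))).inertiaDeg ℤ :=
      Nat.pow_le_pow_right hp.pos hcon
    have h4 : p ^ 2 ≤ p := this.trans hle
    have h5 : p * 2 ≤ p ^ 2 := by
      rw [pow_two]; exact Nat.mul_le_mul_left p hp.two_le
    have := hp.pos
    omega
  omega


theorem natCast_mem_of_mem_primesOver {K : Type*} [Field K] [NumberField K] {p : ℕ}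
    (P : Ideal (𝓞 K)) (hP : P ∈ Ideal.primesOver (Ideal.span {(p : ℤ)}) (𝓞 K)) :
    ((p : ℤ) : 𝓞 K) ∈ P := by
  have := hP.2
  have h1 : (p : ℤ) ∈ P.under ℤ := by
    rw [← Ideal.over_def P (Ideal.span {(p : ℤ)})]
    exact Ideal.mem_span_singleton_self _
  simpa [Ideal.under_def] using h1

/-- At a good prime every prime above is unramified. -/
theorem ramificationIdx_eq_one_of_good {p : ℕ} (hp : Good L p) (P : Ideal (𝓞 L))
    (hP : P ∈ Ideal.primesOver (Ideal.span {(p : ℤ)}) (𝓞 L)) :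
    P.ramificationIdx ℤ = 1 := by
  have := hP.1
  have hunr : Algebra.IsUnramifiedAt ℤ P :=
    (NumberField.not_dvd_discr_iff_forall_mem L (𝓞 L) (Nat.prime_iff_prime_int.mp hp.1)).mp hp.2
      P inferInstance (natCast_mem_of_mem_primesOver P hP)
  exact Ideal.ramificationIdx_eq_one_of_isUnramifiedAt

/-- B3: the number of primes of `L` over a degree-one prime `𝔮` of `L^H` (`p` good). -/
theorem inertiaDegIn_mul_ncard_primesOver {p : ℕ} (hp : Good L p)
    (𝔮 : Ideal (𝓞 (IntermediateField.fixedField H)))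
    (h𝔮 : 𝔮 ∈ Ideal.primesOver (Ideal.span {(p : ℤ)}) (𝓞 (IntermediateField.fixedField H)))
    (hf : 𝔮.inertiaDeg ℤ = 1) :
    (Ideal.span {(p : ℤ)}).inertiaDegIn (𝓞 L) * (Ideal.primesOver 𝔮 (𝓞 L)).ncard =
      Nat.card H := by
  have := isGaloisGroup_fixedField_int L H
  have := h𝔮.1
  have := h𝔮.2
  have main := Ideal.ncard_primesOver_mul_ramificationIdxIn_mul_inertiaDegIn 𝔮 (𝓞 L) H
  obtain ⟨⟨P, hP1, hP2⟩⟩ := (inferInstance : Nonempty (Ideal.primesOver 𝔮 (𝓞 L)))
  have hPp : P.LiesOver (Ideal.span {(p : ℤ)}) := Ideal.LiesOver.trans P 𝔮 _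
  have hPmem : P ∈ Ideal.primesOver (Ideal.span {(p : ℤ)}) (𝓞 L) := ⟨hP1, hPp⟩
  have he : P.ramificationIdx (𝓞 (IntermediateField.fixedField H)) = 1 := by
    have h1 := Ideal.ramificationIdx_tower (R := ℤ) 𝔮 P
    rw [ramificationIdx_eq_one_of_good hp P hPmem] at h1
    exact Nat.eq_one_of_mul_eq_one_left h1.symm
  have hfP : P.inertiaDeg (𝓞 (IntermediateField.fixedField H)) =
      (Ideal.span {(p : ℤ)}).inertiaDegIn (𝓞 L) := by
    have h1 := Ideal.inertiaDeg_tower (R := ℤ) 𝔮 P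
    rw [hf, one_mul] at h1
    rw [← h1]
    exact (Ideal.inertiaDegIn_eq_inertiaDeg (Ideal.span {(p : ℤ)}) P (L ≃ₐ[ℚ] L)).symm
  rw [Ideal.ramificationIdxIn_eq_ramificationIdx 𝔮 P H, Ideal.inertiaDegIn_eq_inertiaDeg 𝔮 P H,
    he, one_mul, hfP] at main
  rw [mul_comm]
  exact main


variable (L) in
/-- **(B)** `f_p * #{P ∣ p : Frob_P ∈ H} = |H| * a_{L^H}(p)` at a good prime `p`. -/
theorem inertiaDegIn_mul_ncard_frobPrimes {p : ℕ} (hp : Good L p) (H : Subgroup (L ≃ₐ[ℚ] L)) :
    (Ideal.span {(p : ℤ)}).inertiaDegIn (𝓞 L) * (frobPrimes L p (H : Set (L ≃ₐ[ℚ] L))).ncard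
      = Nat.card H * idealCount (IntermediateField.fixedField H) p := by
  classical
  have hpZ : (Ideal.span {(p : ℤ)} : Ideal ℤ).IsPrime :=
    (Ideal.span_singleton_prime (by exact_mod_cast hp.1.ne_zero)).mpr
      (Nat.prime_iff_prime_int.mp hp.1)
  have hpZ0 : (Ideal.span {(p : ℤ)} : Ideal ℤ) ≠ ⊥ := by
    rw [Ne, Ideal.span_singleton_eq_bot]
    exact_mod_cast hp.1.ne_zero
  have : (Ideal.span {(p : ℤ)} : Ideal ℤ).IsMaximal := hpZ.isMaximal hpZ0
  -- the two finite sets
  set S : Set (Ideal (𝓞 L)) := frobPrimes L p (H : Set (L ≃ₐ[ℚ] L)) with hS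
  set T : Set (Ideal (𝓞 (IntermediateField.fixedField H))) :=
    {I | Ideal.absNorm I = p} with hT
  have hSfin : S.Finite :=
    (IsDedekindDomain.primesOver_finite (Ideal.span {(p : ℤ)}) (𝓞 L)).subset fun P hP => hP.1
  have hTfin : T.Finite :=
    (IsDedekindDomain.primesOver_finite (Ideal.span {(p : ℤ)})
      (𝓞 (IntermediateField.fixedField H))).subset
      fun I hI => ((absNorm_eq_prime_iff _ hp.1 I).mp hI).1
  have hcount : idealCount (IntermediateField.fixedField H) p = T.ncard := by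
    unfold idealCount
    exact Nat.card_coe_set_eq T
  have hmaps : ∀ P ∈ hSfin.toFinset,
      P.under (𝓞 (IntermediateField.fixedField H)) ∈ hTfin.toFinset := by
    intro P hP
    rw [Set.Finite.mem_toFinset] at hP ⊢
    obtain ⟨hP1, hP2⟩ := hP
    have := hP1.1
    have := hP1.2
    have hlo : (P.under (𝓞 (IntermediateField.fixedField H))).LiesOver
        (Ideal.span {(p : ℤ)}) := Ideal.LiesOver.tower_bot P _ _
    exact (absNorm_eq_prime_iff _ hp.1 _).mpr
      ⟨⟨inferInstance, hlo⟩, inertiaDeg_eq_one_of_frob_mem H hp.1 P hP1 hP2⟩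
  have hfib : ∀ 𝔮 ∈ hTfin.toFinset,
      (Ideal.span {(p : ℤ)}).inertiaDegIn (𝓞 L) *
        (hSfin.toFinset.filter
          (fun P => P.under (𝓞 (IntermediateField.fixedField H)) = 𝔮)).card = Nat.card H := by
    intro 𝔮 h𝔮
    rw [Set.Finite.mem_toFinset] at h𝔮
    obtain ⟨h𝔮mem, h𝔮f⟩ := (absNorm_eq_prime_iff _ hp.1 𝔮).mp h𝔮
    have := h𝔮mem.1
    have := h𝔮mem.2
    have hset : ((hSfin.toFinset.filter
        (fun P => P.under (𝓞 (IntermediateField.fixedField H)) = 𝔮) : Finset _) : Set _) =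
        Ideal.primesOver 𝔮 (𝓞 L) := by
      ext P
      simp only [Finset.coe_filter, Set.Finite.mem_toFinset, Set.mem_ofPred_eq]
      constructor
      · rintro ⟨hPS, hPq⟩
        exact ⟨hPS.1.1, ⟨hPq.symm⟩⟩
      · rintro ⟨hP1, hP2⟩
        have hPp : P.LiesOver (Ideal.span {(p : ℤ)}) := Ideal.LiesOver.trans P 𝔮 _
        have hPq : P.under (𝓞 (IntermediateField.fixedField H)) = 𝔮 := (Ideal.over_def P 𝔮).symm
        refine ⟨⟨⟨hP1, hPp⟩, ?_⟩, hPq⟩
        exact exists_frob_mem_of_inertiaDeg_eq_one H hp.1 P ⟨hP1, hPp⟩ (by rw [hPq]; exact h𝔮f)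
    rw [← Set.ncard_coe_finset, hset]
    exact inertiaDegIn_mul_ncard_primesOver H hp 𝔮 h𝔮mem h𝔮f
  have hsum := Finset.card_eq_sum_card_fiberwise hmaps
  rw [hcount, Set.ncard_eq_toFinset_card S hSfin, Set.ncard_eq_toFinset_card T hTfin, hsum,
    Finset.mul_sum, Finset.sum_congr rfl hfib, Finset.sum_const, smul_eq_mul, mul_comm]


variable (L) in
/-- **(B)**, definition-free form (for adapters): the same statement with `Good`, `frobPrimes`
and `idealCount` unfolded. -/
theorem frob_count_raw {p : ℕ} (hp : p.Prime) (hdisc : ¬ ((p : ℤ) ∣ NumberField.discr L))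
    (H : Subgroup (L ≃ₐ[ℚ] L)) :
    (Ideal.span {(p : ℤ)}).inertiaDegIn (𝓞 L) *
        ({P : Ideal (𝓞 L) | P ∈ Ideal.primesOver (Ideal.span {(p : ℤ)}) (𝓞 L) ∧
            ∃ σ ∈ (H : Set (L ≃ₐ[ℚ] L)), IsArithFrobAt ℤ σ P} : Set (Ideal (𝓞 L))).ncard
      = Nat.card H *
        Nat.card {I : Ideal (𝓞 (IntermediateField.fixedField H)) // Ideal.absNorm I = p} :=
  inertiaDegIn_mul_ncard_frobPrimes L ⟨hp, hdisc⟩ H

end fixed

end Fermat.Agent.Lib.Frob.H344
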